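/-
Cluster E' (Mazur's descent), DESC-Kp leaf KP-SLOPE (helper64), part 1:
the order of `p(t) / q(t)` at a place where `t` takes the value `a`, and the places of `K(u)`.
-/
import Mathlib
import Fermat.Agent.Lib.RR.Hurwitz.Val
import Fermat.Agent.S24.Residue

set_option autoImplicit false

noncomputable section

namespace Fermat.Agent.EKp

open AlgebraicCurve Fermat.Agent.RR IntermediateField Polynomial

section Ord

variable {K L : Type*} [Field K] [Field L] [Algebra K L]

/-- `ord (c + y) = 0` for a nonzero constant `c` and `ord y > 0`. -/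
theorem sl_ord_const_add (P : Place K L) {c : K} (hc : c ≠ 0) {y : L} (hy : 0 < P.ord y) :
    P.ord (algebraMap K L c + y) = 0 := by
  have hy0 : y ≠ 0 := by
    rintro rfl
    simp at hy
  have hcy : algebraMap K L c + y ≠ 0 := by
    intro h0
    have h1 : y = -algebraMap K L c := eq_neg_of_add_eq_zero_right h0
    have h2 : P.ord y = 0 := by
      rw [h1, ← map_neg]
      exact Fermat.Agent.S24Res.ord_algebraMap P _
    omega
  have hval : P.adicValuation y < P.adicValuation (algebraMap K L c) := by
    rw [Fermat.Agent.RRHur.adicValuation_algebraMap_eq_one P hc]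
    by_contra hle
    push Not at hle
    rcases hle.lt_or_eq with hlt | heq
    · have := (Fermat.Agent.RRHur.one_lt_adicValuation_iff P).mp hlt
      omega
    · have h3 := Fermat.Agent.RRHur.adicValuation_eq_exp P y hy0
      rw [← heq] at h3
      have h4 : (WithZero.exp (0 : ℤ)) = WithZero.exp (-P.ord y) := by
        rw [← h3]
        rfl
      have h5 := WithZero.exp_injective h4
      omega
  have h1 : P.adicValuation (algebraMap K L c + y) = 1 := by
    rw [Valuation.map_add_eq_of_lt_left _ hval,
      Fermat.Agent.RRHur.adicValuation_algebraMap_eq_one P hc]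
  have h2 := Fermat.Agent.RRHur.adicValuation_eq_exp P _ hcy
  rw [h1] at h2
  have h4 : (WithZero.exp (0 : ℤ)) = WithZero.exp (-P.ord (algebraMap K L c + y)) := by
    rw [← h2]
    rfl
  have h5 := WithZero.exp_injective h4
  omega

/-- a polynomial which does not vanish at `a` has order `0` at a place where `t = a`. -/
theorem sl_ord_aeval_of_eval_ne (P : Place K L) {t : L} {a : K}
    (ha : 0 < P.ord (t - algebraMap K L a)) {q : K[X]} (hq : q.eval a ≠ 0) :
    P.ord (aeval t q) = 0 := by
  have hdec : q = C (q.eval a) + (X - C a) * (q /ₘ (X - C a)) := by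
    have h1 := modByMonic_add_div q (X - C a)
    rw [modByMonic_X_sub_C_eq_C_eval] at h1
    exact h1.symm
  have hev : aeval t q = algebraMap K L (q.eval a) +
      (t - algebraMap K L a) * aeval t (q /ₘ (X - C a)) := by
    conv_lhs => rw [hdec]
    simp only [map_add, map_mul, map_sub, aeval_C, aeval_X]
  rw [hev]
  by_cases h0 : aeval t (q /ₘ (X - C a)) = 0
  · rw [h0, mul_zero, add_zero]
    exact Fermat.Agent.S24Res.ord_algebraMap P _
  apply sl_ord_const_add P hq
  have hta : t - algebraMap K L a ≠ 0 := by
    intro h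
    rw [h] at ha
    simp at ha
  rw [P.ord_mul hta h0]
  have ht : P.adicValuation t ≤ 1 := by
    rw [Fermat.Agent.RRHur.adicValuation_le_one_iff']
    have h1 : t = (t - algebraMap K L a) + algebraMap K L a := by ring
    have h2 : t ∈ P.toValuationSubring := by
      rw [h1]
      exact add_mem (Fermat.Agent.S24Res.mem_of_ord_nonneg P ha.le) (P.algebraMap_mem' a)
    exact Fermat.Agent.S24Res.ord_nonneg_of_mem P h2
  have h3 := Fermat.Agent.RRHur.adicValuation_aeval_le_one P ht (q /ₘ (X - C a))
  rw [Fermat.Agent.RRHur.adicValuation_le_one_iff'] at h3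
  omega

/-- **the order of `p(t)`** at a place where `t = a`. -/
theorem sl_ord_aeval (P : Place K L) {t : L} (ht : Transcendental K t) {a : K}
    (ha : 0 < P.ord (t - algebraMap K L a)) {p : K[X]} (hp : p ≠ 0) :
    P.ord (aeval t p) = (p.rootMultiplicity a : ℤ) * P.ord (t - algebraMap K L a) := by
  obtain ⟨q, hq, hnd⟩ := exists_eq_pow_rootMultiplicity_mul_and_not_dvd p hp a
  have hqa : q.eval a ≠ 0 := by
    intro h0
    exact hnd (dvd_iff_isRoot.mpr h0)
  have hq0 : q ≠ 0 := by
    rintro rfl
    simp at hqa
  have hta : t - algebraMap K L a ≠ 0 := by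
    intro h
    rw [h] at ha
    simp at ha
  have hev : aeval t p = (t - algebraMap K L a) ^ (p.rootMultiplicity a) * aeval t q := by
    conv_lhs => rw [hq]
    simp only [map_mul, map_pow, map_sub, aeval_C, aeval_X]
  have hq1 : aeval t q ≠ 0 := fun h => hq0 ((transcendental_iff.mp ht) q h)
  rw [hev, P.ord_mul (pow_ne_zero _ hta) hq1, sl_ord_aeval_of_eval_ne P ha hqa, add_zero,
    ← zpow_natCast, P.ord_zpow]

/-- **the order of `p(t) / q(t)`** at a place where `t = a`. -/
theorem sl_ord_ratio (P : Place K L) {t : L} (ht : Transcendental K t) {a : K}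
    (ha : 0 < P.ord (t - algebraMap K L a)) {p q : K[X]} (hp : p ≠ 0) (hq : q ≠ 0) :
    P.ord (aeval t p / aeval t q) =
      ((p.rootMultiplicity a : ℤ) - q.rootMultiplicity a) * P.ord (t - algebraMap K L a) := by
  have hp1 : aeval t p ≠ 0 := fun h => hp ((transcendental_iff.mp ht) p h)
  have hq1 : aeval t q ≠ 0 := fun h => hq ((transcendental_iff.mp ht) q h)
  rw [div_eq_mul_inv, P.ord_mul hp1 (inv_ne_zero hq1), P.ord_inv, sl_ord_aeval P ht ha hp,
    sl_ord_aeval P ht ha hq]
  ring

end Ord

end Fermat.Agent.EKp
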