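/-
Cluster E' (Mazur's descent), DESC-Kp leaf KP-SLOPE (helper64), part 2:
the places `u = a` of `K(u)`: normalisation, uniqueness.
-/
import Mathlib
import Fermat.Agent.E.Desc.Kp.Slope.Ord
import Fermat.Agent.Lib.RR.Basic

set_option autoImplicit false

noncomputable section

namespace Fermat.Agent.EKp

open AlgebraicCurve Fermat.Agent.RR IntermediateField Polynomial

section Places

variable {K F : Type*} [Field K] [Field F] [Algebra K F] {u : F}

theorem sl_coe_aeval_gen (p : K[X]) :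
    ((aeval (AdjoinSimple.gen K u) p : K⟮u⟯) : F) = aeval u p := by
  have h := Polynomial.aeval_algebraMap_apply F (AdjoinSimple.gen K u) p
  rw [AdjoinSimple.algebraMap_gen] at h
  exact h.symm

theorem sl_transcendental_gen (hu : Transcendental K u) :
    Transcendental K (AdjoinSimple.gen K u) := by
  intro halg
  apply hu
  have := halg.algebraMap (A := F)
  rwa [AdjoinSimple.algebraMap_gen] at this

/-- every nonzero element of `K(u)` is `p(u) / q(u)`. -/
theorem sl_exists_ratio (y : K⟮u⟯) (hy : y ≠ 0) :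
    ∃ p q : K[X], p ≠ 0 ∧ q ≠ 0 ∧
      y = aeval (AdjoinSimple.gen K u) p / aeval (AdjoinSimple.gen K u) q := by
  obtain ⟨p, q, hpq⟩ := (IntermediateField.mem_adjoin_simple_iff K (y : F)).mp y.2
  have hy' : (y : F) ≠ 0 := fun h => hy (Subtype.ext h)
  have hp : p ≠ 0 := by
    rintro rfl
    rw [map_zero, zero_div] at hpq
    exact hy' hpq
  have hq : q ≠ 0 := by
    rintro rfl
    rw [map_zero, div_zero] at hpq
    exact hy' hpq
  refine ⟨p, q, hp, hq, ?_⟩
  apply Subtype.ext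
  rw [hpq]
  have h1 : ((aeval (AdjoinSimple.gen K u) p / aeval (AdjoinSimple.gen K u) q : K⟮u⟯) : F) =
      ((aeval (AdjoinSimple.gen K u) p : K⟮u⟯) : F) /
        ((aeval (AdjoinSimple.gen K u) q : K⟮u⟯) : F) :=
    map_div₀ (algebraMap K⟮u⟯ F) _ _
  rw [h1, sl_coe_aeval_gen, sl_coe_aeval_gen]

/-- the place `u = a` of `K(u)` is normalised: `ord (u - a) = 1`. -/
theorem sl_ord_gen_eq_one (hu : Transcendental K u) (v : Place K K⟮u⟯) {a : K}
    (ha : 0 < v.ord (AdjoinSimple.gen K u - algebraMap K K⟮u⟯ a)) :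
    v.ord (AdjoinSimple.gen K u - algebraMap K K⟮u⟯ a) = 1 := by
  obtain ⟨π, hπ⟩ := exists_uniformizer v
  have hπ0 : π ≠ 0 := by
    rintro rfl
    simp at hπ
  obtain ⟨p, q, hp, hq, hpq⟩ := sl_exists_ratio π hπ0
  have h1 := sl_ord_ratio v (sl_transcendental_gen hu) ha hp hq
  rw [← hpq, hπ] at h1
  exact Int.eq_one_of_mul_eq_one_left ha.le h1.symm

/-- the order at the place `u = a` of `K(u)`. -/
theorem sl_ord_eq (hu : Transcendental K u) (v : Place K K⟮u⟯) {a : K}
    (ha : 0 < v.ord (AdjoinSimple.gen K u - algebraMap K K⟮u⟯ a)) {p q : K[X]} (hp : p ≠ 0)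
    (hq : q ≠ 0) :
    v.ord (aeval (AdjoinSimple.gen K u) p / aeval (AdjoinSimple.gen K u) q) =
      (p.rootMultiplicity a : ℤ) - q.rootMultiplicity a := by
  rw [sl_ord_ratio v (sl_transcendental_gen hu) ha hp hq, sl_ord_gen_eq_one hu v ha, mul_one]

/-- the place `u = a` of `K(u)` is unique. -/
theorem sl_place_unique (hu : Transcendental K u) (v v' : Place K K⟮u⟯) {a : K}
    (ha : 0 < v.ord (AdjoinSimple.gen K u - algebraMap K K⟮u⟯ a))
    (ha' : 0 < v'.ord (AdjoinSimple.gen K u - algebraMap K K⟮u⟯ a)) : v = v' := by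
  have key : ∀ y : K⟮u⟯, v.ord y = v'.ord y := by
    intro y
    rcases eq_or_ne y 0 with rfl | hy
    · simp
    obtain ⟨p, q, hp, hq, hpq⟩ := sl_exists_ratio y hy
    rw [hpq, sl_ord_eq hu v ha hp hq, sl_ord_eq hu v' ha' hp hq]
  apply Place.ext
  ext y
  rw [Fermat.Agent.S24Res.mem_iff_ord_nonneg, Fermat.Agent.S24Res.mem_iff_ord_nonneg, key y]

end Places

end Fermat.Agent.EKp
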