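/-
Cluster E' (Mazur's descent), DESC-Kp leaf KP-SLOPE (helper64), part 3:
the norm formula for `F / K(u)` at the place `u = a`.
-/
import Mathlib
import Fermat.Agent.E.Desc.Kp.Slope.Places
import Fermat.Agent.Lib.HeckeInputs.FundId
import Fermat.Agent.Lib.RR.Hurwitz.Lower

set_option autoImplicit false
set_option linter.style.haveILetI false

noncomputable section

namespace Fermat.Agent.EKp

open AlgebraicCurve Fermat.Agent.RR IntermediateField Polynomial Fermat.Agent.S24Diff

section Norm

variable {K F : Type*} [Field K] [Field F] [Algebra K F] {u : F}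

theorem sl_adjoin_gen_eq_top :
    (K⟮AdjoinSimple.gen K u⟯ : IntermediateField K K⟮u⟯) = ⊤ := by
  apply IntermediateField.lift_injective
  rw [IntermediateField.lift_adjoin_simple, IntermediateField.lift_top, AdjoinSimple.coe_gen]

theorem sl_finiteDimensional_top {L : Type*} [Field L] [Algebra K L] :
    FiniteDimensional (⊤ : IntermediateField K L) L := by
  refine Module.Finite.of_surjective (Algebra.linearMap (⊤ : IntermediateField K L) L) ?_
  intro x
  exact ⟨⟨x, IntermediateField.mem_top⟩, rfl⟩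

theorem sl_isFunctionFieldOver_gen (hu : Transcendental K u) :
    IsFunctionFieldOver K K⟮u⟯ (AdjoinSimple.gen K u) where
  transcendental := sl_transcendental_gen hu
  finite := by
    haveI := sl_finiteDimensional_top (K := K) (L := K⟮u⟯)
    exact Fermat.Agent.RRHur.lower_finiteDimensional_of_eq (sl_adjoin_gen_eq_top (K := K) (u := u))

/-- every value is taken. -/
theorem sl_exists_place (h : IsRRField K F) (hu : Transcendental K u) (a : K) :
    ∃ P : Place K F, 0 < P.ord (u - algebraMap K F a) := by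
  have h1 := Fermat.Agent.RRHur.lower_transcendental_inv
    (Fermat.Agent.RRHur.lower_transcendental_sub_const hu a)
  obtain ⟨P, hP⟩ := Fermat.Agent.RRHur.exists_pole h h1
  refine ⟨P, ?_⟩
  have h2 := (Fermat.Agent.RRHur.one_lt_adicValuation_iff P).mp hP
  rw [P.ord_inv] at h2
  omega

theorem sl_algebraMap_gen_sub (a : K) :
    algebraMap K⟮u⟯ F (AdjoinSimple.gen K u - algebraMap K K⟮u⟯ a) = u - algebraMap K F a := by
  rw [map_sub, AdjoinSimple.algebraMap_gen, ← IsScalarTower.algebraMap_apply]

/-- the place of `K(u)` under a place of `F` where `u = a`. -/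
theorem sl_restrict_ord_pos [FiniteDimensional K⟮u⟯ F] (P : Place K F) (a : K) :
    0 < (P.restrict K⟮u⟯).ord (AdjoinSimple.gen K u - algebraMap K K⟮u⟯ a) ↔
      0 < P.ord (u - algebraMap K F a) := by
  have h1 := P.ord_restrict (F := K⟮u⟯) (AdjoinSimple.gen K u - algebraMap K K⟮u⟯ a)
  rw [sl_algebraMap_gen_sub] at h1
  have h2 : 0 < Place.ramificationIndex (F := K⟮u⟯) P := P.ramificationIndex_pos
  have h3 : (0 : ℤ) < (Place.ramificationIndex (F := K⟮u⟯) P : ℤ) := by exact_mod_cast h2
  rw [h1]
  constructor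
  · intro h
    exact mul_pos h3 h
  · intro h
    exact (mul_pos_iff_of_pos_left h3).mp h

/-- **the norm formula at `u = a`**. -/
theorem sl_sum_eq [IsAlgClosed K] [CharZero K] (h : IsRRField K F) (hu : Transcendental K u) [FiniteDimensional K⟮u⟯ F]
    {ψ : F} (hψ : ψ ≠ 0) {p q : K[X]} (hp : p ≠ 0) (hq : q ≠ 0)
    (hR : Algebra.norm K⟮u⟯ ψ =
      aeval (AdjoinSimple.gen K u) p / aeval (AdjoinSimple.gen K u) q)
    (T : Finset (Place K F)) (hT : ∀ P : Place K F, P.ord ψ ≠ 0 → P ∈ T) (a : K)
    [DecidablePred fun P : Place K F => 0 < P.ord (u - algebraMap K F a)] :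
    ∑ P ∈ T.filter (fun P => 0 < P.ord (u - algebraMap K F a)), P.ord ψ =
      (p.rootMultiplicity a : ℤ) - q.rootMultiplicity a := by
  classical
  obtain ⟨P₀, hP₀⟩ := sl_exists_place h hu a
  haveI : HasPrincipalDivisors K F := ⟨h.principal⟩
  have hv := (sl_restrict_ord_pos P₀ a).mpr hP₀
  have hnorm := Fermat.Agent.HeckeInputs.hi_ord_norm_global F (P₀.restrict K⟮u⟯)
    (sl_isFunctionFieldOver_gen hu) ψ hψ
  rw [hR, sl_ord_eq hu _ hv hp hq] at hnorm
  rw [hnorm]
  have hfib : ∀ w : Place K F, w ∈ (P₀.restrict K⟮u⟯).fiber F ↔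
      0 < w.ord (u - algebraMap K F a) := by
    intro w
    rw [Place.mem_fiber]
    constructor
    · intro hw
      rw [← sl_restrict_ord_pos, hw]
      exact hv
    · intro hw
      exact sl_place_unique hu _ _ ((sl_restrict_ord_pos w a).mpr hw) hv
  apply Finset.sum_subset
  · intro w hw
    exact (hfib w).mpr (Finset.mem_filter.mp hw).2
  · intro w hw hnot
    by_contra hne
    exact hnot (Finset.mem_filter.mpr ⟨hT w hne, (hfib w).mp hw⟩)

end Norm

end Fermat.Agent.EKp
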