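/-
Cluster E' (Mazur's descent), DESC-Kp leaf KP-SLOPE (helper64), part 4: assembly of SLOPE from
the Gauss contents (`SlopeGauss₁/₂`), the norm lemma (`SlopeNorm₁/₂`) and the norm formula.
-/
import Mathlib
import Fermat.Agent.E.Desc.Kp.SlopeDefs
import Fermat.Agent.E.Desc.Kp.Slope.NormAt
import Fermat.Agent.Lib.RedTr.FundIdK

set_option autoImplicit false
set_option linter.style.haveILetI false

noncomputable section

namespace Fermat.Agent.EKp

open AlgebraicCurve Fermat.Agent.RR Fermat.Agent.Deuring Fermat.Agent.FF IntermediateField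
  Polynomial

section Val

variable {K : Type*} [Field K] (A : ValuationSubring K)

theorem sl_val_eq_one {c : K} (hc : c ∈ A) (hc' : c⁻¹ ∈ A) (hc0 : c ≠ 0) :
    A.valuation c = 1 := by
  have h1 : A.valuation c ≤ 1 := (A.valuation_le_one_iff c).mpr hc
  have h2 : A.valuation c⁻¹ ≤ 1 := (A.valuation_le_one_iff c⁻¹).mpr hc'
  rw [map_inv₀] at h2
  have h3 : A.valuation c ≠ 0 := (Valuation.ne_zero_iff _).mpr hc0
  exact le_antisymm h1 ((inv_le_one₀ (zero_lt_iff.mpr h3)).mp h2)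

theorem sl_val_div_eq_one {c d : K} (hd0 : d ≠ 0) (h : A.valuation (c / d) = 1) :
    A.valuation c = A.valuation d := by
  rw [map_div₀] at h
  have h3 : A.valuation d ≠ 0 := (Valuation.ne_zero_iff _).mpr hd0
  exact (div_eq_one_iff_eq h3).mp h

end Val

variable {K F k Fk Fk₁ Fk₂ : Type*} [Field K] [Field F] [Algebra K F]
  [Field k] [Field Fk] [Algebra k Fk] [Field Fk₁] [Algebra k Fk₁] [Field Fk₂] [Algebra k Fk₂]

/-- a Gauss parameter is transcendental over `K`. -/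
theorem sl_transcendental_of_red [IsAlgClosed K] (S : ValSetup K F k Fk) {t : F}
    (ht : t ∈ S.Ov) (htr : Transcendental k (S.red t)) : Transcendental K t := by
  intro halg
  obtain ⟨c, hc⟩ := Fermat.Agent.S24Res.mem_range_of_isAlgebraic halg
  apply htr
  have hcA : c ∈ S.A := (S.mem_Ov_iff c).mp (hc ▸ ht)
  rw [← hc, S.red_algebraMap hcA]
  exact isAlgebraic_algebraMap _

/-- comparison of two Gauss contents. -/
theorem sl_const_unit (S : ValSetup K F k Fk) {X Y : F} {cX cY : K} (hcX : cX ≠ 0)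
    (hcY : cY ≠ 0) (hX : S.red (X / algebraMap K F cX) ≠ 0)
    (hY : S.red (Y / algebraMap K F cY) ≠ 0) (hXY : S.red (X / Y) ≠ 0) :
    cX / cY ∈ S.A ∧ (cX / cY)⁻¹ ∈ S.A := by
  have hX0 : X ≠ 0 := by
    rintro rfl
    rw [zero_div] at hX
    exact hX S.red_zero
  have hY0 : Y ≠ 0 := by
    rintro rfl
    rw [zero_div] at hY
    exact hY S.red_zero
  have hcX' : algebraMap K F cX ≠ 0 := (_root_.map_ne_zero _).mpr hcX
  have hcY' : algebraMap K F cY ≠ 0 := (_root_.map_ne_zero _).mpr hcY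
  have e1 : algebraMap K F (cX / cY) =
      (X / Y) * (Y / algebraMap K F cY) * (X / algebraMap K F cX)⁻¹ := by
    rw [map_div₀]
    field_simp
  have e2 : algebraMap K F (cX / cY)⁻¹ =
      (X / Y)⁻¹ * (Y / algebraMap K F cY)⁻¹ * (X / algebraMap K F cX) := by
    rw [map_inv₀, map_div₀]
    field_simp
  constructor
  · rw [← S.mem_Ov_iff, e1]
    exact mul_mem (mul_mem (S.mem_of_red_ne_zero hXY) (S.mem_of_red_ne_zero hY))
      (S.inv_mem_of_red_ne_zero hX)
  · rw [← S.mem_Ov_iff, e2]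
    exact mul_mem (mul_mem (S.inv_mem_of_red_ne_zero hXY) (S.inv_mem_of_red_ne_zero hY))
      (S.mem_of_red_ne_zero hX)

section Clamp

variable (A : ValuationSubring K) (ϖ : K)

open Classical in
/-- the clamp of a constant. -/
def slopeClK (a : K) : K :=
  if A.valuation a ≤ A.valuation ϖ then ϖ
  else if A.valuation a < 1 then a
  else 1

theorem slopeClK_mul (hϖ1 : A.valuation ϖ < 1) (a : K) :
    A.valuation (slopeClK A ϖ a) * max 1 (A.valuation a) =
      max (A.valuation ϖ) (A.valuation a) := by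
  unfold slopeClK
  split_ifs with h1 h2
  · rw [max_eq_left (le_trans h1 hϖ1.le), mul_one, max_eq_left h1]
  · push Not at h1
    rw [max_eq_left h2.le, mul_one, max_eq_right h1.le]
  · push Not at h1 h2
    rw [map_one, one_mul, max_eq_right h2, max_eq_right h1.le]

theorem slopeClK_ne_zero (hϖ : ϖ ≠ 0) (a : K) : slopeClK A ϖ a ≠ 0 := by
  unfold slopeClK
  split_ifs with h1 h2
  · exact hϖ
  · push Not at h1
    intro h0
    rw [h0, map_zero] at h1
    exact not_lt_zero h1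
  · exact one_ne_zero

end Clamp

theorem slopeCl_eq (S₁ : ValSetup K F k Fk₁) (u : F) (ϖ : K) (P : Place K F) :
    slopeCl S₁ u ϖ P =
      if P.ord u < 0 then 1 else slopeClK S₁.A ϖ (valueAt S₁.hF P u) := by
  unfold slopeCl slopeClK
  rfl

/-- the multiset product of the clamps of the roots, via the two Gauss contents. -/
theorem sl_roots_prod {Γ : Type*} [CommGroupWithZero Γ] {Φ M₁ M₂ : K → Γ}
    (hΦ : ∀ a, Φ a * M₁ a = M₂ a) (s : Multiset K) :
    (s.map Φ).prod * (s.map M₁).prod = (s.map M₂).prod := by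
  rw [← Multiset.prod_map_mul]
  congr 1
  exact Multiset.map_congr rfl fun a _ => hΦ a

/-- a multiset product as a product over a larger finset. -/
theorem sl_multiset_prod_eq {Γ : Type*} [CommMonoid Γ] [DecidableEq K] (Φ : K → Γ)
    (s : Multiset K) (B : Finset K) (hB : s.toFinset ⊆ B) :
    (s.map Φ).prod = ∏ a ∈ B, Φ a ^ s.count a := by
  rw [Finset.prod_multiset_map_count]
  apply Finset.prod_subset hB
  intro a _ ha
  rw [Multiset.mem_toFinset] at ha
  rw [Multiset.count_eq_zero_of_notMem ha, pow_zero]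

/-- `∏ x ^ n_i = x ^ (∑ n_i)`. -/
theorem sl_prod_zpow_const {Γ : Type*} [CommGroupWithZero Γ] {ι : Type*} (s : Finset ι)
    (x : Γ) (hx : x ≠ 0) (n : ι → ℤ) : ∏ i ∈ s, x ^ n i = x ^ ∑ i ∈ s, n i := by
  classical
  induction s using Finset.induction_on with
  | empty => simp
  | insert a s ha ih => rw [Finset.prod_insert ha, Finset.sum_insert ha, ih, zpow_add₀ hx]

end Fermat.Agent.EKp

namespace Fermat.Agent.EKp

open AlgebraicCurve Fermat.Agent.RR Fermat.Agent.Deuring Fermat.Agent.FF IntermediateField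
  Polynomial

variable {K F k Fk₁ Fk₂ : Type*} [Field K] [Field F] [Algebra K F]
  [Field k] [Field Fk₁] [Algebra k Fk₁] [Field Fk₂] [Algebra k Fk₂]

/-- the places with `u = a`. -/
theorem sl_value_iff [IsAlgClosed K] (h : IsRRField K F) {u : F} (hu : Transcendental K u)
    (P : Place K F) (a : K) :
    (0 ≤ P.ord u ∧ valueAt h P u = a) ↔ 0 < P.ord (u - algebraMap K F a) := by
  constructor
  · rintro ⟨h0, hval⟩
    have hmem : u ∈ P.toValuationSubring := Fermat.Agent.S24Res.mem_of_ord_nonneg P h0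
    rcases (valueAt_eq_iff h P hmem a).mp hval with h1 | h1
    · exfalso
      apply hu
      rw [h1]
      exact isAlgebraic_algebraMap _
    · exact h1
  · intro h1
    have hm : u - algebraMap K F a ∈ P.toValuationSubring :=
      Fermat.Agent.S24Res.mem_of_ord_nonneg P h1.le
    have hmem : u ∈ P.toValuationSubring := by
      have := add_mem hm (P.algebraMap_mem' a)
      rwa [sub_add_cancel] at this
    exact ⟨Fermat.Agent.S24Res.ord_nonneg_of_mem P hmem,
      (valueAt_eq_iff h P hmem a).mpr (Or.inr h1)⟩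

/-- **SLOPE**, from the sub-seats. -/
theorem slope_of [IsAlgClosed K] [CharZero K] {S₁ : ValSetup K F k Fk₁}
    {S₂ : ValSetup K F k Fk₂} {u : F} {ϖ : K} (h : SlopeData S₁ S₂ u ϖ)
    (hG₁ : SlopeGauss₁ S₁ u) (hG₂ : SlopeGauss₂ S₁ S₂ u ϖ) (hN₁ : SlopeNorm₁ S₁ u)
    (hN₂ : SlopeNorm₂ S₂ u) {ψ : F} (hψ₁ : S₁.red ψ ≠ 0) (hψ₂ : S₂.red ψ ≠ 0)
    (T : Finset (Place K F)) (hT : ∀ P : Place K F, P.ord ψ ≠ 0 → P ∈ T) :
    S₁.A.valuation (∏ P ∈ T, slopeCl S₁ u ϖ P ^ (P.ord ψ)) = 1 := by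
  classical
  have hu : Transcendental K u := sl_transcendental_of_red S₁ h.u_mem h.u_tr
  haveI : FiniteDimensional K⟮u⟯ F := Fermat.Agent.RedTr.fundIdK_finiteDimensional S₁.hF hu
  have hψ0 : ψ ≠ 0 := S₁.ne_zero_of_red_ne_zero hψ₁
  have hR₁ := hN₁ ψ hψ₁
  have hR₂ := hN₂ ψ hψ₂
  have hR0 : Algebra.norm K⟮u⟯ ψ ≠ 0 := by
    intro h0
    rw [h0, map_zero] at hR₁
    exact hR₁ S₁.red_zero
  obtain ⟨p, q, hp, hq, hpq⟩ := sl_exists_ratio _ hR0
  have hRF : algebraMap K⟮u⟯ F (Algebra.norm K⟮u⟯ ψ) = aeval u p / aeval u q := by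
    rw [hpq, map_div₀]
    show ((aeval (AdjoinSimple.gen K u) p : K⟮u⟯) : F) /
      ((aeval (AdjoinSimple.gen K u) q : K⟮u⟯) : F) = _
    rw [sl_coe_aeval_gen, sl_coe_aeval_gen]
  obtain ⟨c₁p, hc₁p, hv₁p, hr₁p⟩ := hG₁ p hp
  obtain ⟨c₁q, hc₁q, hv₁q, hr₁q⟩ := hG₁ q hq
  obtain ⟨c₂p, hc₂p, hv₂p, hr₂p⟩ := hG₂ p hp
  obtain ⟨c₂q, hc₂q, hv₂q, hr₂q⟩ := hG₂ q hq
  rw [hRF] at hR₁ hR₂
  have e₁ : S₁.A.valuation c₁p = S₁.A.valuation c₁q := by
    obtain ⟨m1, m2⟩ := sl_const_unit S₁ hc₁p hc₁q hr₁p hr₁q hR₁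
    exact sl_val_div_eq_one _ hc₁q (sl_val_eq_one _ m1 m2 (div_ne_zero hc₁p hc₁q))
  have e₂ : S₁.A.valuation c₂p = S₁.A.valuation c₂q := by
    obtain ⟨m1, m2⟩ := sl_const_unit S₂ hc₂p hc₂q hr₂p hr₂q hR₂
    rw [← h.A_eq] at m1 m2
    exact sl_val_div_eq_one _ hc₂q (sl_val_eq_one _ m1 m2 (div_ne_zero hc₂p hc₂q))
  -- the clamp in the value group
  have hΦ : ∀ a, S₁.A.valuation (slopeClK S₁.A ϖ a) * max 1 (S₁.A.valuation a) =
      max (S₁.A.valuation ϖ) (S₁.A.valuation a) := slopeClK_mul S₁.A ϖ h.varpi_lt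
  have hΦ0 : ∀ a, S₁.A.valuation (slopeClK S₁.A ϖ a) ≠ 0 := fun a =>
    (Valuation.ne_zero_iff _).mpr (slopeClK_ne_zero S₁.A ϖ h.varpi_ne a)
  have hp' := sl_roots_prod hΦ p.roots
  have hq' := sl_roots_prod hΦ q.roots
  have hpΦ : (p.roots.map fun a => S₁.A.valuation (slopeClK S₁.A ϖ a)).prod *
      S₁.A.valuation c₁p = S₁.A.valuation c₂p := by
    rw [hv₁p, hv₂p, ← hp']
    rw [mul_left_comm]
  have hqΦ : (q.roots.map fun a => S₁.A.valuation (slopeClK S₁.A ϖ a)).prod *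
      S₁.A.valuation c₁q = S₁.A.valuation c₂q := by
    rw [hv₁q, hv₂q, ← hq']
    rw [mul_left_comm]
  have hΦeq : (p.roots.map fun a => S₁.A.valuation (slopeClK S₁.A ϖ a)).prod =
      (q.roots.map fun a => S₁.A.valuation (slopeClK S₁.A ϖ a)).prod := by
    have hne : S₁.A.valuation c₁q ≠ 0 := (Valuation.ne_zero_iff _).mpr hc₁q
    apply mul_right_cancel₀ hne
    rw [hqΦ, ← e₁, hpΦ, e₂]
  -- bookkeeping
  have step1 : S₁.A.valuation (∏ P ∈ T, slopeCl S₁ u ϖ P ^ (P.ord ψ)) =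
      ∏ P ∈ T.filter (fun P => 0 ≤ P.ord u),
        S₁.A.valuation (slopeClK S₁.A ϖ (valueAt S₁.hF P u)) ^ (P.ord ψ) := by
    rw [map_prod, Finset.prod_filter]
    refine Finset.prod_congr rfl fun P _ => ?_
    rw [map_zpow₀, slopeCl_eq]
    by_cases h1 : P.ord u < 0
    · rw [if_pos h1, if_neg (by omega), map_one, one_zpow]
    · rw [if_neg h1, if_pos (by omega)]
  set B : Finset K := ((T.filter (fun P => 0 ≤ P.ord u)).image fun P => valueAt S₁.hF P u) ∪
    p.roots.toFinset ∪ q.roots.toFinset with hB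
  have step2 : ∏ P ∈ T.filter (fun P => 0 ≤ P.ord u),
        S₁.A.valuation (slopeClK S₁.A ϖ (valueAt S₁.hF P u)) ^ (P.ord ψ) =
      ∏ a ∈ B, S₁.A.valuation (slopeClK S₁.A ϖ a) ^
        ((p.rootMultiplicity a : ℤ) - q.rootMultiplicity a) := by
    rw [← Finset.prod_fiberwise_of_maps_to (t := B) (g := fun P => valueAt S₁.hF P u)]
    · refine Finset.prod_congr rfl fun a _ => ?_
      have h1 : ∀ P ∈ (T.filter fun P => 0 ≤ P.ord u).filter
          (fun P => valueAt S₁.hF P u = a),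
          S₁.A.valuation (slopeClK S₁.A ϖ (valueAt S₁.hF P u)) ^ (P.ord ψ) =
            S₁.A.valuation (slopeClK S₁.A ϖ a) ^ (P.ord ψ) := by
        intro P hP
        rw [(Finset.mem_filter.mp hP).2]
      have hsum : ∑ P ∈ (T.filter fun P => 0 ≤ P.ord u).filter
          (fun P => valueAt S₁.hF P u = a), P.ord ψ =
          (p.rootMultiplicity a : ℤ) - q.rootMultiplicity a := by
        rw [← sl_sum_eq S₁.hF hu hψ0 hp hq hpq T hT a]
        refine Finset.sum_congr ?_ (fun _ _ => rfl)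
        ext P
        simp only [Finset.mem_filter, and_assoc]
        rw [sl_value_iff S₁.hF hu P a]
      rw [Finset.prod_congr rfl h1, sl_prod_zpow_const _ _ (hΦ0 a), hsum]
    · intro P hP
      rw [hB]
      exact Finset.mem_union_left _ (Finset.mem_union_left _ (Finset.mem_image_of_mem _ hP))
  have step3 : ∏ a ∈ B, S₁.A.valuation (slopeClK S₁.A ϖ a) ^
        ((p.rootMultiplicity a : ℤ) - q.rootMultiplicity a) = 1 := by
    have h1 : ∀ a ∈ B, S₁.A.valuation (slopeClK S₁.A ϖ a) ^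
        ((p.rootMultiplicity a : ℤ) - q.rootMultiplicity a) =
        S₁.A.valuation (slopeClK S₁.A ϖ a) ^ (p.roots.count a) /
          S₁.A.valuation (slopeClK S₁.A ϖ a) ^ (q.roots.count a) := by
      intro a _
      rw [zpow_sub₀ (hΦ0 a), zpow_natCast, zpow_natCast, count_roots, count_roots]
    rw [Finset.prod_congr rfl h1, Finset.prod_div_distrib,
      ← sl_multiset_prod_eq (fun a => S₁.A.valuation (slopeClK S₁.A ϖ a)) p.roots B,
      ← sl_multiset_prod_eq (fun a => S₁.A.valuation (slopeClK S₁.A ϖ a)) q.roots B, hΦeq]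
    · apply div_self
      rw [← hΦeq]
      intro h0
      rw [h0, zero_mul] at hpΦ
      exact (Valuation.ne_zero_iff _).mpr hc₂p hpΦ.symm
    · rw [hB]
      exact Finset.subset_union_right
    · rw [hB]
      exact Finset.subset_union_left.trans' Finset.subset_union_right |>.trans
        (le_refl _)
  rw [step1, step2, step3]

end Fermat.Agent.EKp

namespace Fermat.Agent.EKp

open AlgebraicCurve Fermat.Agent.RR Fermat.Agent.Deuring Fermat.Agent.FF IntermediateField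
  Polynomial

variable {K F k Fk₁ Fk₂ : Type*} [Field K] [Field F] [Algebra K F]
  [Field k] [Field Fk₁] [Algebra k Fk₁] [Field Fk₂] [Algebra k Fk₂]

/-- **SLOPE**, annulus form, from the sub-seats. -/
theorem slope_annulus_of [IsAlgClosed K] [CharZero K] {S₁ : ValSetup K F k Fk₁}
    {S₂ : ValSetup K F k Fk₂} {u : F} {ϖ : K} (h : SlopeData S₁ S₂ u ϖ)
    (hG₁ : SlopeGauss₁ S₁ u) (hG₂ : SlopeGauss₂ S₁ S₂ u ϖ) (hN₁ : SlopeNorm₁ S₁ u)
    (hN₂ : SlopeNorm₂ S₂ u) {ψ : F} (hψ₁ : S₁.red ψ ≠ 0) (hψ₂ : S₂.red ψ ≠ 0)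
    (T : Finset (Place K F))
    (hT : ∀ P : Place K F, P ∈ T ↔ P.ord ψ ≠ 0 ∧ 0 ≤ P.ord u ∧
      S₁.A.valuation ϖ < S₁.A.valuation (valueAt S₁.hF P u) ∧
      S₁.A.valuation (valueAt S₁.hF P u) < 1) :
    ∃ z : ℤ, S₁.A.valuation (∏ P ∈ T, valueAt S₁.hF P u ^ (P.ord ψ)) =
      S₁.A.valuation ϖ ^ z := by
  classical
  set T' : Finset (Place K F) := (divOf S₁.hF ψ).support with hT'
  have hT'mem : ∀ P : Place K F, P.ord ψ ≠ 0 → P ∈ T' := by
    intro P hP
    rw [hT', Finsupp.mem_support_iff, divOf_apply]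
    exact hP
  have hsub : T ⊆ T' := fun P hP => hT'mem P ((hT P).mp hP).1
  have hmain := slope_of h hG₁ hG₂ hN₁ hN₂ hψ₁ hψ₂ T' hT'mem
  have hϖ0 : S₁.A.valuation ϖ ≠ 0 := (Valuation.ne_zero_iff _).mpr h.varpi_ne
  set T₂ : Finset (Place K F) := T'.filter (fun P => 0 ≤ P.ord u ∧
    S₁.A.valuation (valueAt S₁.hF P u) ≤ S₁.A.valuation ϖ) with hT₂
  have hfac : ∀ P ∈ T', S₁.A.valuation (slopeCl S₁ u ϖ P ^ (P.ord ψ)) =
      (if P ∈ T then S₁.A.valuation (valueAt S₁.hF P u ^ (P.ord ψ)) else 1) *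
        (if P ∈ T₂ then S₁.A.valuation ϖ ^ (P.ord ψ) else 1) := by
    intro P hP
    have hPψ : P.ord ψ ≠ 0 := by
      rw [hT', Finsupp.mem_support_iff, divOf_apply] at hP
      exact hP
    rw [slopeCl_eq]
    by_cases h1 : P.ord u < 0
    · have hnT : P ∉ T := fun hh => by
        have := ((hT P).mp hh).2.1
        omega
      have hnT₂ : P ∉ T₂ := fun hh => by
        have := (Finset.mem_filter.mp hh).2.1
        omega
      rw [if_pos h1, if_neg hnT, if_neg hnT₂, one_zpow, map_one, one_mul]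
    · rw [if_neg h1]
      push Not at h1
      unfold slopeClK
      by_cases h2 : S₁.A.valuation (valueAt S₁.hF P u) ≤ S₁.A.valuation ϖ
      · have hnT : P ∉ T := fun hh => by
          have := ((hT P).mp hh).2.2.1
          exact absurd h2 (not_le.mpr this)
        have hT₂P : P ∈ T₂ := Finset.mem_filter.mpr ⟨hP, h1, h2⟩
        rw [if_pos h2, if_neg hnT, if_pos hT₂P, one_mul, map_zpow₀]
      · have hnT₂ : P ∉ T₂ := fun hh => h2 (Finset.mem_filter.mp hh).2.2
        rw [if_neg h2, if_neg hnT₂, mul_one]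
        push Not at h2
        by_cases h3 : S₁.A.valuation (valueAt S₁.hF P u) < 1
        · have hTP : P ∈ T := (hT P).mpr ⟨hPψ, h1, h2, h3⟩
          rw [if_pos h3, if_pos hTP]
        · have hnT : P ∉ T := fun hh => h3 ((hT P).mp hh).2.2.2
          rw [if_neg h3, if_neg hnT, one_zpow, map_one]
  rw [map_prod, Finset.prod_congr rfl hfac, Finset.prod_mul_distrib,
    Finset.prod_ite_mem, Finset.inter_eq_right.mpr hsub, ← map_prod,
    Finset.prod_ite_mem, Finset.inter_eq_right.mpr (Finset.filter_subset _ _),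
    sl_prod_zpow_const _ _ hϖ0] at hmain
  refine ⟨-∑ P ∈ T₂, P.ord ψ, ?_⟩
  rw [zpow_neg]
  exact eq_inv_of_mul_eq_one_left hmain

end Fermat.Agent.EKp
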